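import Fermat.Agent.S19.KM.Key.Steps3
import Fermat.Agent.S19.KM.Deuring.Adm
import Fermat.Agent.S19.KM.Curve.Bpf
import Fermat.Agent.S19.KM.Red.ChangeFrame
import Fermat.Agent.S19.KM.Hopf.Defs

/-!
# S19 / KM route, section K3: the addition law on the spaces `VV` is regular
Owner: helper288.
-/

set_option autoImplicit false

noncomputable section

namespace Fermat.Agent.S19.KM

open AlgebraicCurve Fermat.Agent.S24.FF Fermat.Agent.Lib.RR Module Submodule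

variable {K F k Fk : Type*} [Field K] [Field F] [Algebra K F] [Field k] [Field Fk] [Algebra k Fk]

/-- a divisor represents at most one class -/
theorem Rep.unique {D : Divisor K F} {c c' : Pic0 K F} (h : Rep D c) (h' : Rep D c') : c = c' := by
  obtain ⟨h1, rfl⟩ := h
  obtain ⟨h2, rfl⟩ := h'
  rfl

variable [IsCurve K F] [IsCurve k Fk] {𝔊 : GRData K F k Fk}

namespace GRData

namespace K3

theorem dg_nsmul_M (m : ℕ) : dg (m • 𝔊.M) = m * 𝔊.n := by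
  show Divisor.degree (m • 𝔊.M) = m * 𝔊.n
  rw [map_nsmul, nsmul_eq_mul]
  rfl

end K3

variable {X : Type*} [AddCommGroup X] [Finite X] {ι : X →+ Pic0 K F}

theorem VV_le {E₀ : Divisor K F} (h : 𝔊.IsAdm ι E₀) (m : ℕ) (P : X) :
    𝔊.VV ι E₀ m P ≤ L (m • 𝔊.M) :=
  L_mono (sub_le_self _ (h.isEP_EP P).1)

theorem VV_injective {E₀ : Divisor K F} (h : 𝔊.IsAdm ι E₀) (hι : Function.Injective ι) {m : ℕ}
    (hm : 𝔊.Big (gen K F) m) : Function.Injective (𝔊.VV ι E₀ m) := by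
  intro P Q hPQ
  have hdeg : ∀ P : X, bd K F + 1 ≤ dg (m • 𝔊.M - EP ι E₀ P) := by
    intro P
    have h1 : dg (m • 𝔊.M - EP ι E₀ P) = m * 𝔊.n - gen K F := by
      show Divisor.degree (m • 𝔊.M - EP ι E₀ P) = _
      rw [map_sub]
      have h2 : Divisor.degree (m • 𝔊.M) = m * 𝔊.n := K3.dg_nsmul_M m
      have h3 : Divisor.degree (EP ι E₀ P) = gen K F := h.dg_EP P
      rw [h2, h3]
    have h4 := hm.2.1
    have h5 : 0 ≤ gen K F := Int.natCast_nonneg _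
    rw [h1]
    omega
  have h1 : m • 𝔊.M - EP ι E₀ P = m • 𝔊.M - EP ι E₀ Q := eq_of_L_eq (hdeg P) (hdeg Q) hPQ
  have h2 : EP ι E₀ P = EP ι E₀ Q := sub_right_injective h1
  have h3 := (h.isEP_EP P).2
  rw [h2] at h3
  exact hι (h3.unique (h.isEP_EP Q).2)

/-- **KEY** -/
theorem addReg {E₀ : Divisor K F} (h : 𝔊.IsAdm ι E₀) {m : ℕ} (hm : 𝔊.Big (gen K F) m)
    {J : Type*} [Fintype J] [DecidableEq J] {v : J → F} {vb : J → Fk} (hv : 𝔊.IsFrame v vb)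
    (e : span K (Set.range v) = L (m • 𝔊.M)) : 𝔊.AddReg v vb (𝔊.VV ι E₀ m) := by
  intro Ω 𝒮 hc r₁ r₂
  obtain ⟨m', v', vb', hv', e', -, -⟩ := 𝔊.exists_frame m hm.1
  have e'' : span K (Set.range v') = L (m • 𝔊.M) := e'
  have toReg : ∀ {W : Ω → Submodule K F}, 𝔊.IsReg 𝒮 v vb W → 𝔊.Reg 𝒮 m W := fun hW =>
    ⟨m', v', vb', hv', e'', RedData.IsReg.change_frame hv hv' (e.trans e''.symm) hW⟩
  obtain ⟨E₀b, h₀⟩ := 𝔊.exists_isRdiv h.eff
  have hred : ∀ P : X, ∃ Eb, 𝔊.IsRdiv (EP ι E₀ P) Eb := fun P =>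
    𝔊.exists_isRdiv (h.isEP_EP P).1
  choose Eb hEb using hred
  have key := reg_add (𝔊 := 𝔊) (𝒮 := 𝒮) (m := m) (E₀ := E₀) (E₀b := E₀b)
    (E₁ := fun ω => EP ι E₀ ω.1.1) (E₂ := fun ω => EP ι E₀ ω.1.2)
    (E₃ := fun ω => EP ι E₀ (ω.1.1 + ω.1.2))
    (E₁b := fun ω => Eb ω.1.1) (E₂b := fun ω => Eb ω.1.2) (E₃b := fun ω => Eb (ω.1.1 + ω.1.2))
    hc hm h₀ h.deg (fun ω => hEb _) (fun ω => h.dg_EP _) (fun ω => hEb _) (fun ω => h.dg_EP _)
    (fun ω => hEb _) (fun ω => h.one _ _ _ (h.isEP_EP _) (hEb _))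
    (fun ω => by
      have h3 := (h.isEP_EP (ω.1.1 + ω.1.2)).2
      have h12 := ((h.isEP_EP ω.1.1).2).add ((h.isEP_EP ω.1.2).2)
      rw [← map_add] at h12
      obtain ⟨y, hy, hdiv⟩ := h3.exists_divOf h12
      refine ⟨y, hy, ?_⟩
      rw [← hdiv]
      abel)
    (toReg r₁) (toReg r₂)
  exact key.isReg hv e

end GRData

end Fermat.Agent.S19.KM
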