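import Fermat.Agent.S19.KM.Red.ChangeFrame
import Fermat.Agent.S19.KM.Red.Reg
import Fermat.Agent.S19.KM.Red.Op1
import Fermat.Agent.S19.KM.Red.Op2
import Fermat.Agent.S19.KM.Deuring.Basic
import Fermat.Agent.S19.KM.Curve.Basic
import Fermat.Agent.S19.KM.GR.Defs

/-!
# S19 / KM route, K1: the calculus of `Reg` (regular families of subspaces of `L(iM)`)
Owner: helper206.
-/

set_option autoImplicit false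

noncomputable section

namespace Fermat.Agent.S19.KM

open AlgebraicCurve Fermat.Agent.S24.FF Fermat.Agent.Lib.RR Module Submodule

variable {K F k Fk : Type*} [Field K] [Field F] [Algebra K F] [Field k] [Field Fk] [Algebra k Fk]

variable [IsCurve K F] [IsCurve k Fk] (𝔊 : GRData K F k Fk)

namespace GRData

variable {Ω : Type*}

/-- `W` is an `𝒮`-regular family of subspaces of `L(iM)` -/
def Reg (𝒮 : Subalgebra 𝔊.A (Ω → 𝔊.A)) (i : ℕ) (W : Ω → Submodule K F) : Prop :=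
  ∃ (m : ℕ) (v : Fin m → F) (vb : Fin m → Fk), 𝔊.IsFrame v vb ∧
    span K (Set.range v) = L (i • 𝔊.M) ∧ 𝔊.IsReg 𝒮 v vb W

/-- the frames of `L(iM)`, in terms of `M` and `Mk` -/
theorem exists_frame' {i : ℕ} (hi : 𝔊.i₀ ≤ i) : ∃ (m : ℕ) (v : Fin m → F) (vb : Fin m → Fk),
    𝔊.IsFrame v vb ∧ span K (Set.range v) = L (i • 𝔊.M) ∧
      span k (Set.range vb) = L (i • 𝔊.Mk) := by
  obtain ⟨m, v, vb, hfr, hv, hvb, -⟩ := 𝔊.exists_frame i hi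
  exact ⟨m, v, vb, hfr, hv, hvb⟩

variable {𝔊} {𝒮 : Subalgebra 𝔊.A (Ω → 𝔊.A)}

theorem Reg.isReg {i : ℕ} {W : Ω → Submodule K F} (h : 𝔊.Reg 𝒮 i W) {ι : Type*} [Fintype ι]
    {v : ι → F} {vb : ι → Fk} (hv : 𝔊.IsFrame v vb) (e : span K (Set.range v) = L (i • 𝔊.M)) :
    𝔊.IsReg 𝒮 v vb W := by
  obtain ⟨m, v₀, vb₀, hv₀, e₀, hW⟩ := h
  exact RedData.IsReg.change_frame hv₀ hv (e₀.trans e.symm) hW

theorem Reg.le {i : ℕ} {W : Ω → Submodule K F} (h : 𝔊.Reg 𝒮 i W) (ω : Ω) :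
    W ω ≤ L (i • 𝔊.M) := by
  obtain ⟨m, v₀, vb₀, hv₀, e₀, hW⟩ := h
  rw [← e₀]
  exact hW.le_span ω

theorem Reg.const (𝒮 : Subalgebra 𝔊.A (Ω → 𝔊.A)) {i : ℕ} (hi : 𝔊.i₀ ≤ i) {W : Submodule K F}
    (hW : W ≤ L (i • 𝔊.M)) : 𝔊.Reg 𝒮 i (fun _ => W) := by
  obtain ⟨m, v, vb, hfr, hv, -⟩ := 𝔊.exists_frame' hi
  exact ⟨m, v, vb, hfr, hv, RedData.IsReg.const hfr 𝒮 (hW.trans_eq hv.symm)⟩

theorem Reg.mul (hc : 𝔊.ConstRed 𝒮) {i j : ℕ} (hi : 𝔊.i₀ ≤ i) (hj : 𝔊.i₀ ≤ j)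
    {W₁ W₂ : Ω → Submodule K F} (h₁ : 𝔊.Reg 𝒮 i W₁) (h₂ : 𝔊.Reg 𝒮 j W₂)
    (hdim : ∀ ω, finrank K (W₁ ω * W₂ ω : Submodule K F) ≤
      finrank k (𝔊.redSub (W₁ ω) * 𝔊.redSub (W₂ ω) : Submodule k Fk)) :
    𝔊.Reg 𝒮 (i + j) (fun ω => W₁ ω * W₂ ω) ∧
      ∀ ω, 𝔊.redSub (W₁ ω * W₂ ω) = 𝔊.redSub (W₁ ω) * 𝔊.redSub (W₂ ω) := by
  obtain ⟨m₁, v₁, vb₁, hf₁, e₁, -⟩ := 𝔊.exists_frame' hi
  obtain ⟨m₂, v₂, vb₂, hf₂, e₂, -⟩ := 𝔊.exists_frame' hj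
  obtain ⟨m₃, v₃, vb₃, hf₃, e₃, -⟩ := 𝔊.exists_frame' (hi.trans (Nat.le_add_right i j))
  have hmul : ∀ a b, v₁ a * v₂ b ∈ span K (Set.range v₃) := by
    intro a b
    rw [e₃, add_smul]
    refine mul_mem_L ?_ ?_
    · rw [← e₁]; exact subset_span ⟨a, rfl⟩
    · rw [← e₂]; exact subset_span ⟨b, rfl⟩
  obtain ⟨hr, he⟩ := RedData.IsReg.mul hf₁ hf₂ hf₃ hmul hc (h₁.isReg hf₁ e₁) (h₂.isReg hf₂ e₂) hdim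
  exact ⟨⟨m₃, v₃, vb₃, hf₃, e₃, hr⟩, he⟩

theorem Reg.colon [Finite Ω] (hc : 𝔊.ConstRed 𝒮) {i j : ℕ} (hi : 𝔊.i₀ ≤ i) (hj : 𝔊.i₀ ≤ j)
    {W₂ W₃ : Ω → Submodule K F} (h₂ : 𝔊.Reg 𝒮 j W₂) (h₃ : 𝔊.Reg 𝒮 (i + j) W₃)
    (hdim : ∀ ω, finrank k (KM.colon (L (i • 𝔊.Mk)) (𝔊.redSub (W₂ ω)) (𝔊.redSub (W₃ ω))) ≤
      finrank K (KM.colon (L (i • 𝔊.M)) (W₂ ω) (W₃ ω))) :
    𝔊.Reg 𝒮 i (fun ω => KM.colon (L (i • 𝔊.M)) (W₂ ω) (W₃ ω)) ∧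
      ∀ ω, 𝔊.redSub (KM.colon (L (i • 𝔊.M)) (W₂ ω) (W₃ ω)) =
        KM.colon (L (i • 𝔊.Mk)) (𝔊.redSub (W₂ ω)) (𝔊.redSub (W₃ ω)) := by
  obtain ⟨m₁, v₁, vb₁, hf₁, e₁, eb₁⟩ := 𝔊.exists_frame' hi
  obtain ⟨m₂, v₂, vb₂, hf₂, e₂, -⟩ := 𝔊.exists_frame' hj
  obtain ⟨m₃, v₃, vb₃, hf₃, e₃, -⟩ := 𝔊.exists_frame' (hi.trans (Nat.le_add_right i j))
  have hmul : ∀ a b, v₁ a * v₂ b ∈ span K (Set.range v₃) := by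
    intro a b
    rw [e₃, add_smul]
    refine mul_mem_L ?_ ?_
    · rw [← e₁]; exact subset_span ⟨a, rfl⟩
    · rw [← e₂]; exact subset_span ⟨b, rfl⟩
  rw [← e₁, ← eb₁] at hdim
  obtain ⟨hr, he⟩ := RedData.IsReg.colon hf₁ hf₂ hf₃ hmul hc (h₂.isReg hf₂ e₂) (h₃.isReg hf₃ e₃) hdim
  rw [← e₁, ← eb₁]
  exact ⟨⟨m₁, v₁, vb₁, hf₁, e₁, hr⟩, he⟩

theorem Reg.exists_generator {i : ℕ} {W : Ω → Submodule K F} (h : 𝔊.Reg 𝒮 i W)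
    (h1 : ∀ ω, finrank K (W ω) = 1) : ∃ (a : Ω → F) (ab : Ω → Fk),
      ∀ ω, W ω = K ∙ a ω ∧ 𝔊.Red (a ω) (ab ω) ∧ ab ω ≠ 0 ∧ 𝔊.redSub (W ω) = k ∙ ab ω := by
  obtain ⟨m, v, vb, hv, e, hW⟩ := h
  exact RedData.IsReg.exists_generator hv hW h1

/-- a regular nowhere vanishing section -/
theorem Reg.exists_section {i : ℕ} {W : Ω → Submodule K F} (h : 𝔊.Reg 𝒮 i W)
    (h0 : ∀ ω, W ω ≠ ⊥) : ∃ (a : Ω → F) (ab : Ω → Fk), 𝔊.Reg 𝒮 i (fun ω => K ∙ a ω) ∧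
      ∀ ω, a ω ∈ W ω ∧ 𝔊.Red (a ω) (ab ω) ∧ ab ω ≠ 0 ∧ 𝔊.redSub (K ∙ a ω) = k ∙ ab ω := by
  obtain ⟨m, v, vb, hv, e, hW⟩ := h
  obtain ⟨a, ha, hreg⟩ := RedData.IsReg.exists_section hv hW h0
  obtain ⟨a', ab, hab⟩ := RedData.IsReg.exists_generator hv hreg
    (fun ω => finrank_span_singleton (ha ω).2)
  have hfun : (fun ω => K ∙ a ω) = fun ω => K ∙ a' ω := funext fun ω => (hab ω).1
  refine ⟨a', ab, ⟨m, v, vb, hv, e, hfun ▸ hreg⟩, fun ω => ⟨?_, (hab ω).2.1, (hab ω).2.2.1, ?_⟩⟩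
  · have h1 : a' ω ∈ K ∙ a ω := by
      rw [(hab ω).1]
      exact mem_span_singleton_self _
    obtain ⟨c, hc⟩ := mem_span_singleton.mp h1
    rw [← hc]
    exact (W ω).smul_mem c (ha ω).1
  · rw [← (hab ω).1]
    exact (hab ω).2.2.2

/-- multiplication of a regular family by a regular line -/
theorem Reg.line_mul (hc : 𝔊.ConstRed 𝒮) {i j : ℕ} (hi : 𝔊.i₀ ≤ i) (hj : 𝔊.i₀ ≤ j) {a : Ω → F}
    {ab : Ω → Fk} (ha : 𝔊.Reg 𝒮 i (fun ω => K ∙ a ω))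
    (hab : ∀ ω, ab ω ≠ 0 ∧ 𝔊.redSub (K ∙ a ω) = k ∙ ab ω) {W : Ω → Submodule K F}
    (hW : 𝔊.Reg 𝒮 j W) :
    𝔊.Reg 𝒮 (i + j) (fun ω => (K ∙ a ω) * W ω) ∧
      ∀ ω, 𝔊.redSub ((K ∙ a ω) * W ω) = (k ∙ ab ω) * 𝔊.redSub (W ω) := by
  have hdim : ∀ ω, finrank K ((K ∙ a ω) * W ω : Submodule K F) ≤
      finrank k (𝔊.redSub (K ∙ a ω) * 𝔊.redSub (W ω) : Submodule k Fk) := by
    intro ω
    rw [(hab ω).2, finrank_span_singleton_mul (hab ω).1, 𝔊.finrank_redSub hj (hW.le ω)]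
    by_cases h0 : a ω = 0
    · rw [h0, span_singleton_mul_eq_map]
      have : (W ω).map (LinearMap.mulLeft K (0 : F)) = ⊥ := by
        rw [eq_bot_iff]
        rintro _ ⟨f, -, rfl⟩
        simp
      rw [this, finrank_bot]
      exact Nat.zero_le _
    · exact (finrank_span_singleton_mul h0 _).le
  obtain ⟨hr, he⟩ := Reg.mul hc hi hj ha hW hdim
  refine ⟨hr, fun ω => ?_⟩
  rw [he ω, (hab ω).2]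

end GRData

end Fermat.Agent.S19.KM
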