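import Fermat.Agent.S19.KM.Key.Reg
import Fermat.Agent.S19.KM.Curve.Fibre
import Fermat.Agent.S19.KM.Curve.Mul
import Fermat.Agent.S19.KM.Curve.Basic
import Fermat.Agent.S19.KM.Deuring.Basic

/-!
# S19 / KM route, section K2 part 1: `step_one`, `step_section`   (task S19-KM-K2a, helper167)

Helper lemmas live in the namespace `GRData.Steps1`.
-/

set_option autoImplicit false

noncomputable section

namespace Fermat.Agent.S19.KM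

open AlgebraicCurve Fermat.Agent.S24.FF Fermat.Agent.Lib.RR Module Submodule

variable {K F k Fk : Type*} [Field K] [Field F] [Algebra K F] [Field k] [Field Fk] [Algebra k Fk]
variable [IsCurve K F] [IsCurve k Fk] {𝔊 : GRData K F k Fk}

namespace GRData

namespace Steps1

variable {Ω : Type*} {𝒮 : Subalgebra 𝔊.A (Ω → 𝔊.A)}

/-! ### bookkeeping -/

omit [IsCurve K F] in
theorem gen_nonneg : 0 ≤ gen K F := Int.natCast_nonneg _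

omit [IsCurve K F] in
theorem dg_add (D D' : Divisor K F) : dg (D + D') = dg D + dg D' := map_add _ _ _

omit [IsCurve K F] in
theorem dg_sub (D D' : Divisor K F) : dg (D - D') = dg D - dg D' := map_sub _ _ _

omit [IsCurve K F] in
theorem dg_nsmul (i : ℕ) (D : Divisor K F) : dg (i • D) = i * dg D := by
  show Divisor.degree (i • D) = _
  rw [map_nsmul, nsmul_eq_mul]

theorem dg_smul_M (i : ℕ) : dg (i • 𝔊.M) = i * 𝔊.n := dg_nsmul i _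

theorem dg_smul_Mk (i : ℕ) : dg (i • 𝔊.Mk) = i * 𝔊.n := by
  rw [dg_nsmul, 𝔊.dg_Mk]

/-- (switch to `genus_eq' 𝔊` when `Deuring/Basic.lean` is landed) -/
theorem genus_eq' (𝔊 : GRData K F k Fk) : gen K F = gen k Fk := 𝔊.genus_eq

/-- two divisors of the same large degree on the two curves have the same `l`. -/
theorem ell_eq_ell (𝔊 : GRData K F k Fk) {D : Divisor K F} {Db : Divisor k Fk} (e : dg Db = dg D)
    (h : bd K F ≤ dg D) (hb : bd k Fk ≤ dg D) : ell D = ell Db := by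
  have h1 := ell_eq h
  have h2 := ell_eq (D := Db) (by rw [e]; exact hb)
  rw [e, ← genus_eq' 𝔊] at h2
  have : (ell D : ℤ) = ell Db := by rw [h1, h2]
  exact_mod_cast this

section
variable {m : ℕ} {E : Divisor K F} {Eb : Divisor k Fk}

theorem redSub_sub (hm : 𝔊.Big (gen K F) m) (h : 𝔊.IsRdiv E Eb) (d : dg E = gen K F) :
    𝔊.redSub (L (m • 𝔊.M - E)) = L (m • 𝔊.Mk - Eb) :=
  h.2.2.2 m (by rw [d]; exact hm)

theorem dg_b (h : 𝔊.IsRdiv E Eb) (d : dg E = gen K F) : dg Eb = gen k Fk := by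
  rw [h.2.2.1, d, genus_eq' 𝔊]

theorem L_sub_ne_bot (hm : 𝔊.Big (gen K F) m) (d : dg E = gen K F) : L (m • 𝔊.M - E) ≠ ⊥ := by
  obtain ⟨-, h2, -⟩ := hm
  have hb := bd_nonneg (K := K) (F := F)
  obtain ⟨f, hf, hf0⟩ := exists_mem_L_ne_zero (D := m • 𝔊.M - E) (by
    rw [dg_sub, dg_smul_M, d]
    linarith)
  intro h0
  rw [h0, Submodule.mem_bot] at hf
  exact hf0 hf

end

theorem span_singleton_mul_span_singleton {R A : Type*} [CommSemiring R] [Semiring A] [Algebra R A]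
    (a b : A) : (R ∙ a) * (R ∙ b) = R ∙ (a * b) := by
  rw [Submodule.span_mul_span, Set.singleton_mul_singleton]

/-! ### the two steps -/

end Steps1

open Steps1

variable {Ω : Type*} {𝒮 : Subalgebra 𝔊.A (Ω → 𝔊.A)}

section Steps
variable [Finite Ω] {m : ℕ} {E₁ E₂ : Ω → Divisor K F} {E₁b E₂b : Ω → Divisor k Fk}

/-- step (f1) -/
theorem step_one (hc : 𝔊.ConstRed 𝒮) (hm : 𝔊.Big (gen K F) m)
    (h₁ : ∀ ω, 𝔊.IsRdiv (E₁ ω) (E₁b ω)) (d₁ : ∀ ω, dg (E₁ ω) = gen K F)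
    (h₂ : ∀ ω, 𝔊.IsRdiv (E₂ ω) (E₂b ω)) (d₂ : ∀ ω, dg (E₂ ω) = gen K F)
    (r₁ : 𝔊.Reg 𝒮 m (fun ω => L (m • 𝔊.M - E₁ ω))) (r₂ : 𝔊.Reg 𝒮 m (fun ω => L (m • 𝔊.M - E₂ ω))) :
    𝔊.Reg 𝒮 (m + (m + 2 * m)) (fun ω => L (4 • (m • 𝔊.M) - E₁ ω - E₂ ω)) ∧
      ∀ ω, 𝔊.redSub (L (4 • (m • 𝔊.M) - E₁ ω - E₂ ω)) = L (4 • (m • 𝔊.Mk) - E₁b ω - E₂b ω) := by
  obtain ⟨hi, hK, hk⟩ := id hm
  have hg := gen_nonneg (K := K) (F := F)
  have hbK := bd_nonneg (K := K) (F := F)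
  have hbk := bd_nonneg (K := k) (F := Fk)
  have hgen := genus_eq' 𝔊
  have e2K : (2 * m) • 𝔊.M = 2 • (m • 𝔊.M) := mul_smul 2 m 𝔊.M
  have e2k : (2 * m) • 𝔊.Mk = 2 • (m • 𝔊.Mk) := mul_smul 2 m 𝔊.Mk
  -- products on the two curves
  have pK : ∀ ω, L (m • 𝔊.M - E₂ ω) * L ((2 * m) • 𝔊.M) = L (m • 𝔊.M - E₂ ω + (2 * m) • 𝔊.M) := by
    intro ω
    apply L_mul_L
    · rw [dg_sub, dg_smul_M, d₂]; linarith
    · rw [dg_sub, dg_smul_M, dg_smul_M, d₂]; push_cast; nlinarith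
  have pk : ∀ ω, L (m • 𝔊.Mk - E₂b ω) * L ((2 * m) • 𝔊.Mk) =
      L (m • 𝔊.Mk - E₂b ω + (2 * m) • 𝔊.Mk) := by
    intro ω
    apply L_mul_L
    · rw [dg_sub, dg_smul_Mk, dg_b (h₂ ω) (d₂ ω), ← hgen]; linarith
    · rw [dg_sub, dg_smul_Mk, dg_smul_Mk, dg_b (h₂ ω) (d₂ ω), ← hgen]; push_cast; nlinarith
  have fK : ∀ ω, L (m • 𝔊.M - E₁ ω) * (L (m • 𝔊.M - E₂ ω) * L ((2 * m) • 𝔊.M)) =
      L (4 • (m • 𝔊.M) - E₁ ω - E₂ ω) := by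
    intro ω
    rw [e2K]
    exact fibre_one (by rw [dg_smul_M]; linarith) (d₁ ω) (d₂ ω)
  have fk : ∀ ω, L (m • 𝔊.Mk - E₁b ω) * (L (m • 𝔊.Mk - E₂b ω) * L ((2 * m) • 𝔊.Mk)) =
      L (4 • (m • 𝔊.Mk) - E₁b ω - E₂b ω) := by
    intro ω
    rw [e2k]
    exact fibre_one (by rw [dg_smul_Mk, ← hgen]; linarith) (dg_b (h₁ ω) (d₁ ω))
      (dg_b (h₂ ω) (d₂ ω))
  have hi2 : 𝔊.i₀ ≤ 2 * m := by omega
  have rC : 𝔊.Reg 𝒮 (2 * m) (fun _ => L ((2 * m) • 𝔊.M)) := Reg.const 𝒮 hi2 le_rfl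
  -- first product
  obtain ⟨rA, eA⟩ := Reg.mul hc hi hi2 r₂ rC (by
    intro ω
    rw [redSub_sub hm (h₂ ω) (d₂ ω), 𝔊.redSub_L hi2, pK, pk]
    apply le_of_eq
    apply ell_eq_ell 𝔊
    · rw [dg_add, dg_add, dg_sub, dg_sub, dg_smul_M, dg_smul_M, dg_smul_Mk, dg_smul_Mk,
        (h₂ ω).2.2.1]
    · rw [dg_add, dg_sub, dg_smul_M, dg_smul_M, d₂]; push_cast; nlinarith
    · rw [dg_add, dg_sub, dg_smul_M, dg_smul_M, d₂]; push_cast; nlinarith)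
  have eA' : ∀ ω, 𝔊.redSub (L (m • 𝔊.M - E₂ ω) * L ((2 * m) • 𝔊.M)) =
      L (m • 𝔊.Mk - E₂b ω) * L ((2 * m) • 𝔊.Mk) := by
    intro ω
    rw [eA, redSub_sub hm (h₂ ω) (d₂ ω), 𝔊.redSub_L hi2]
  -- second product
  obtain ⟨rB, eB⟩ := Reg.mul hc hi (by omega : 𝔊.i₀ ≤ m + 2 * m) r₁ rA (by
    intro ω
    rw [redSub_sub hm (h₁ ω) (d₁ ω), eA', fK, fk]
    apply le_of_eq
    apply ell_eq_ell 𝔊
    · rw [dg_sub, dg_sub, dg_sub, dg_sub, dg_nsmul 4 (m • 𝔊.M), dg_nsmul 4 (m • 𝔊.Mk), dg_smul_M,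
        dg_smul_Mk, (h₁ ω).2.2.1, (h₂ ω).2.2.1]
    · rw [dg_sub, dg_sub, dg_nsmul, dg_smul_M, d₁, d₂]; push_cast
      nlinarith
    · rw [dg_sub, dg_sub, dg_nsmul, dg_smul_M, d₁, d₂]; push_cast
      nlinarith)
  constructor
  · have : (fun ω => L (4 • (m • 𝔊.M) - E₁ ω - E₂ ω)) =
        fun ω => L (m • 𝔊.M - E₁ ω) * (L (m • 𝔊.M - E₂ ω) * L ((2 * m) • 𝔊.M)) := by
      funext ω
      rw [fK]
    rw [this]
    exact rB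
  · intro ω
    rw [← fK, eB, redSub_sub hm (h₁ ω) (d₁ ω), eA', fk]

/-- the section `a = a' a''` -/
theorem step_section (hc : 𝔊.ConstRed 𝒮) (hm : 𝔊.Big (gen K F) m)
    (h₁ : ∀ ω, 𝔊.IsRdiv (E₁ ω) (E₁b ω)) (d₁ : ∀ ω, dg (E₁ ω) = gen K F)
    (h₂ : ∀ ω, 𝔊.IsRdiv (E₂ ω) (E₂b ω)) (d₂ : ∀ ω, dg (E₂ ω) = gen K F)
    (r₁ : 𝔊.Reg 𝒮 m (fun ω => L (m • 𝔊.M - E₁ ω))) (r₂ : 𝔊.Reg 𝒮 m (fun ω => L (m • 𝔊.M - E₂ ω))) :
    ∃ (a : Ω → F) (ab : Ω → Fk), 𝔊.Reg 𝒮 (m + m) (fun ω => K ∙ a ω) ∧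
      ∀ ω, a ω ≠ 0 ∧ a ω ∈ L (2 • (m • 𝔊.M) - E₁ ω - E₂ ω) ∧ ab ω ≠ 0 ∧
        ab ω ∈ L (2 • (m • 𝔊.Mk) - E₁b ω - E₂b ω) ∧ 𝔊.redSub (K ∙ a ω) = k ∙ ab ω := by
  have hi := hm.1
  obtain ⟨a', ab', ra', ha'⟩ := r₁.exists_section (fun ω => L_sub_ne_bot hm (d₁ ω))
  obtain ⟨a'', ab'', ra'', ha''⟩ := r₂.exists_section (fun ω => L_sub_ne_bot hm (d₂ ω))
  obtain ⟨rP, eP⟩ := Reg.line_mul hc hi hi ra' (fun ω => ⟨(ha' ω).2.2.1, (ha' ω).2.2.2⟩) ra''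
  refine ⟨fun ω => a' ω * a'' ω, fun ω => ab' ω * ab'' ω, ?_, ?_⟩
  · simpa only [span_singleton_mul_span_singleton] using rP
  · intro ω
    obtain ⟨m1, red1, ne1, -⟩ := ha' ω
    obtain ⟨m2, red2, ne2, e2⟩ := ha'' ω
    refine ⟨mul_ne_zero (red1.ne_zero ne1) (red2.ne_zero ne2), ?_, mul_ne_zero ne1 ne2, ?_, ?_⟩
    · have := mul_mem_L m1 m2
      have e : m • 𝔊.M - E₁ ω + (m • 𝔊.M - E₂ ω) = 2 • (m • 𝔊.M) - E₁ ω - E₂ ω := by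
        rw [two_smul]; abel
      rwa [e] at this
    · have b1 : ab' ω ∈ L (m • 𝔊.Mk - E₁b ω) := by
        rw [← redSub_sub hm (h₁ ω) (d₁ ω)]
        exact RedData.mem_redSub.2 ⟨_, m1, red1⟩
      have b2 : ab'' ω ∈ L (m • 𝔊.Mk - E₂b ω) := by
        rw [← redSub_sub hm (h₂ ω) (d₂ ω)]
        exact RedData.mem_redSub.2 ⟨_, m2, red2⟩
      have := mul_mem_L b1 b2
      have e : m • 𝔊.Mk - E₁b ω + (m • 𝔊.Mk - E₂b ω) = 2 • (m • 𝔊.Mk) - E₁b ω - E₂b ω := by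
        rw [two_smul]; abel
      rwa [e] at this
    · have := eP ω
      rw [span_singleton_mul_span_singleton, e2, span_singleton_mul_span_singleton] at this
      exact this

end Steps

end GRData

end Fermat.Agent.S19.KM
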