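import Fermat.Agent.S19.KM.Key.Reg
import Fermat.Agent.S19.KM.Curve.Fibre
import Fermat.Agent.S19.KM.Curve.Basic
import Fermat.Agent.S19.KM.Deuring.Basic

/-!
# S19 / KM route, section K2: step (f2) in families.   Owner: helper296.
-/

set_option autoImplicit false

noncomputable section

namespace Fermat.Agent.S19.KM

open AlgebraicCurve Fermat.Agent.S24.FF Fermat.Agent.Lib.RR Module Submodule

variable {K F k Fk : Type*} [Field K] [Field F] [Algebra K F] [Field k] [Field Fk] [Algebra k Fk]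

variable [IsCurve K F] [IsCurve k Fk] {𝔊 : GRData K F k Fk}

namespace GRData

variable {Ω : Type*} {𝒮 : Subalgebra 𝔊.A (Ω → 𝔊.A)}

section Steps
variable [Finite Ω] {m : ℕ} {E₀ : Divisor K F} {E₀b : Divisor k Fk}
  {E₁ E₂ E₃ : Ω → Divisor K F} {E₁b E₂b E₃b : Ω → Divisor k Fk}

/-- step (f2): the line `a L(E₁ + E₂ - E₀)` is regular -/
theorem step_two (hc : 𝔊.ConstRed 𝒮) (hm : 𝔊.Big (gen K F) m)
    (h₀ : 𝔊.IsRdiv E₀ E₀b) (d₀ : dg E₀ = gen K F)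
    (h₁ : ∀ ω, 𝔊.IsRdiv (E₁ ω) (E₁b ω)) (d₁ : ∀ ω, dg (E₁ ω) = gen K F)
    (h₂ : ∀ ω, 𝔊.IsRdiv (E₂ ω) (E₂b ω)) (d₂ : ∀ ω, dg (E₂ ω) = gen K F)
    (hone : ∀ ω, ell (E₁b ω + E₂b ω - E₀b) = 1)
    (rY : 𝔊.Reg 𝒮 (m + (m + 2 * m)) (fun ω => L (4 • (m • 𝔊.M) - E₁ ω - E₂ ω)))
    (eY : ∀ ω, 𝔊.redSub (L (4 • (m • 𝔊.M) - E₁ ω - E₂ ω)) = L (4 • (m • 𝔊.Mk) - E₁b ω - E₂b ω))
    {a : Ω → F} {ab : Ω → Fk} (ra : 𝔊.Reg 𝒮 (m + m) (fun ω => K ∙ a ω))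
    (ha : ∀ ω, a ω ≠ 0 ∧ a ω ∈ L (2 • (m • 𝔊.M) - E₁ ω - E₂ ω) ∧ ab ω ≠ 0 ∧
        ab ω ∈ L (2 • (m • 𝔊.Mk) - E₁b ω - E₂b ω) ∧ 𝔊.redSub (K ∙ a ω) = k ∙ ab ω) :
    𝔊.Reg 𝒮 (m + m) (fun ω => (K ∙ a ω) * L (E₁ ω + E₂ ω - E₀)) ∧
      ∀ ω, ell (E₁ ω + E₂ ω - E₀) = 1 ∧
        𝔊.redSub ((K ∙ a ω) * L (E₁ ω + E₂ ω - E₀)) = (k ∙ ab ω) * L (E₁b ω + E₂b ω - E₀b) := by
  have hm' := hm
  obtain ⟨hm0, hm1, hm2⟩ := hm'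
  have hg0 : 0 ≤ gen K F := Int.natCast_nonneg _
  have hgen : gen K F = gen k Fk := 𝔊.genus_eq
  have hi : 𝔊.i₀ ≤ m + m := by omega
  have hj : 𝔊.i₀ ≤ m + (m + 2 * m) := by omega
  have e2 : (m + m) • 𝔊.M = 2 • (m • 𝔊.M) := by rw [two_nsmul, add_nsmul]
  have e2k : (m + m) • 𝔊.Mk = 2 • (m • 𝔊.Mk) := by rw [two_nsmul, add_nsmul]
  have e4' : 4 • (m • 𝔊.M) = (4 * m) • 𝔊.M := by rw [smul_smul]
  have e4k' : 4 • (m • 𝔊.Mk) = (4 * m) • 𝔊.Mk := by rw [smul_smul]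
  have e4 : (m + (m + 2 * m)) • 𝔊.M = 4 • (m • 𝔊.M) := by
    rw [e4']; congr 1; ring
  have hM : bd K F + gen K F + 1 ≤ dg (m • 𝔊.M) := by
    have : dg (m • 𝔊.M) = m * 𝔊.n :=
      (map_nsmul Divisor.degree m 𝔊.M).trans (nsmul_eq_mul _ _)
    rw [this]; linarith
  have hMk : bd k Fk + gen k Fk + 1 ≤ dg (m • 𝔊.Mk) := by
    have : dg (m • 𝔊.Mk) = m * 𝔊.n := by
      rw [← 𝔊.dg_Mk]
      exact (map_nsmul Divisor.degree m 𝔊.Mk).trans (nsmul_eq_mul _ _)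
    rw [this, ← hgen]; linarith
  -- the constant family
  have hle : L (4 • (m • 𝔊.M) - E₀) ≤ L ((m + (m + 2 * m)) • 𝔊.M) := by
    rw [e4]; exact L_mono (sub_le_self _ h₀.1)
  have rc := Reg.const 𝒮 hj hle
  have hab : ∀ ω, ab ω ≠ 0 ∧ 𝔊.redSub (K ∙ a ω) = k ∙ ab ω :=
    fun ω => ⟨(ha ω).2.2.1, (ha ω).2.2.2.2⟩
  obtain ⟨r3, e3⟩ := Reg.line_mul hc hi hj ra hab rc
  have hbig4 : 𝔊.Big (dg E₀) (4 * m) := Big.mono 𝔊 hm (by rw [d₀]) (by omega)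
  have ec : 𝔊.redSub (L (4 • (m • 𝔊.M) - E₀)) = L (4 • (m • 𝔊.Mk) - E₀b) := by
    rw [e4', e4k']; exact h₀.2.2.2 _ hbig4
  have fK : ∀ ω, KM.colon (L ((m + m) • 𝔊.M)) (L (4 • (m • 𝔊.M) - E₁ ω - E₂ ω))
      ((K ∙ a ω) * L (4 • (m • 𝔊.M) - E₀)) = (K ∙ a ω) * L (E₁ ω + E₂ ω - E₀) := fun ω => by
    rw [e2]; exact fibre_two hM (d₁ ω) (d₂ ω) h₀.1 (ha ω).1 (ha ω).2.1
  have fk : ∀ ω, KM.colon (L ((m + m) • 𝔊.Mk)) (L (4 • (m • 𝔊.Mk) - E₁b ω - E₂b ω))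
      ((k ∙ ab ω) * L (4 • (m • 𝔊.Mk) - E₀b)) = (k ∙ ab ω) * L (E₁b ω + E₂b ω - E₀b) := fun ω => by
    rw [e2k]
    exact fibre_two hMk (by rw [(h₁ ω).2.2.1, d₁ ω, hgen])
      (by rw [(h₂ ω).2.2.1, d₂ ω, hgen]) h₀.2.1 (ha ω).2.2.1 (ha ω).2.2.2.1
  have hge : ∀ ω, 1 ≤ ell (E₁ ω + E₂ ω - E₀) := fun ω => by
    have h := le_ell (E₁ ω + E₂ ω - E₀)
    have hd : dg (E₁ ω + E₂ ω - E₀) = dg (E₁ ω) + dg (E₂ ω) - dg E₀ := by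
      simp only [dg, map_sub, map_add]
    rw [hd, d₁ ω, d₂ ω, d₀] at h
    have : (1 : ℤ) ≤ ell (E₁ ω + E₂ ω - E₀) := by linarith
    exact_mod_cast this
  have hdim : ∀ ω, finrank k (KM.colon (L ((m + m) • 𝔊.Mk))
      (𝔊.redSub (L (4 • (m • 𝔊.M) - E₁ ω - E₂ ω)))
      (𝔊.redSub ((K ∙ a ω) * L (4 • (m • 𝔊.M) - E₀)))) ≤
      finrank K (KM.colon (L ((m + m) • 𝔊.M)) (L (4 • (m • 𝔊.M) - E₁ ω - E₂ ω))
        ((K ∙ a ω) * L (4 • (m • 𝔊.M) - E₀))) := fun ω => by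
    rw [eY, e3, ec, fk, fK, finrank_span_singleton_mul (ha ω).2.2.1,
      finrank_span_singleton_mul (ha ω).1]
    exact (hone ω).le.trans (hge ω)
  obtain ⟨r, e⟩ := Reg.colon hc hi hj rY r3 hdim
  have er : ∀ ω, 𝔊.redSub ((K ∙ a ω) * L (E₁ ω + E₂ ω - E₀))
      = (k ∙ ab ω) * L (E₁b ω + E₂b ω - E₀b) := fun ω => by
    have h := e ω
    rw [fK, eY, e3, ec, fk] at h
    exact h
  refine ⟨?_, fun ω => ⟨?_, er ω⟩⟩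
  · have : (fun ω => (K ∙ a ω) * L (E₁ ω + E₂ ω - E₀)) = fun ω =>
        KM.colon (L ((m + m) • 𝔊.M)) (L (4 • (m • 𝔊.M) - E₁ ω - E₂ ω))
          ((K ∙ a ω) * L (4 • (m • 𝔊.M) - E₀)) := funext fun ω => (fK ω).symm
    rw [this]
    exact r
  · have hle2 : (K ∙ a ω) * L (E₁ ω + E₂ ω - E₀) ≤ L ((m + m) • 𝔊.M) := by
      rw [← fK ω]
      intro u hu
      exact hu.1
    have h := 𝔊.finrank_redSub hi hle2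
    rw [er ω, finrank_span_singleton_mul (ha ω).2.2.1, finrank_span_singleton_mul (ha ω).1] at h
    exact h.symm.trans (hone ω)

end Steps

end GRData

end Fermat.Agent.S19.KM
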