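import Fermat.Agent.S19.KM.Key.Reg
import Fermat.Agent.S19.KM.Key.Steps1
import Fermat.Agent.S19.KM.Key.Steps2
import Fermat.Agent.S19.KM.Curve.Fibre
import Fermat.Agent.S19.KM.Curve.Basic
import Fermat.Agent.S19.KM.Deuring.Basic
import Fermat.Agent.S19.KM.Deuring.Add
import Fermat.Agent.S19.KM.Deuring.Principal

/-!
# S19 / KM route: section K2 (part 3) of the blueprint `WIP/KeyBP.lean`

`step_three` (identity (f3) in families) and `reg_add` (the addition law in families), statements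
verbatim, proved from the blueprint statements.  Owner: helper252.

-/

set_option autoImplicit false

noncomputable section

namespace Fermat.Agent.S19.KM

open AlgebraicCurve Fermat.Agent.S24.FF Fermat.Agent.Lib.RR Module Submodule

variable {K F k Fk : Type*} [Field K] [Field F] [Algebra K F] [Field k] [Field Fk] [Algebra k Fk]

/-- a one dimensional subspace is spanned by any of its nonzero elements -/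
theorem steps3_eq_span_singleton {W : Submodule K F} (h : finrank K W = 1) {f : F}
    (hf : f ∈ W) (hf0 : f ≠ 0) : W = K ∙ f := by
  have hfin : Module.Finite K W := Module.finite_of_finrank_pos (by omega)
  have hle : (K ∙ f) ≤ W := (span_singleton_le_iff_mem f W).2 hf
  refine (Submodule.eq_of_le_of_finrank_eq hle ?_).symm
  rw [h, finrank_span_singleton hf0]

theorem steps3_span_mul_span (a b : F) :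
    (K ∙ a) * (K ∙ b) = (K ∙ (a * b) : Submodule K F) := by
  rw [Submodule.span_mul_span, Set.singleton_mul_singleton]

variable [IsCurve K F] [IsCurve k Fk] {𝔊 : GRData K F k Fk}

namespace GRData

variable {Ω : Type*} {𝒮 : Subalgebra 𝔊.A (Ω → 𝔊.A)}

theorem Big.steps3_bd_le {m : ℕ} (hm : 𝔊.Big (gen K F) m) :
    bd K F + gen K F + 1 ≤ dg (m • 𝔊.M) := by
  have h := hm.2.1
  have hg : (0 : ℤ) ≤ gen K F := Int.natCast_nonneg _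
  have : dg (m • 𝔊.M) = m * 𝔊.n := by
    simp [GRData.n, dg, map_nsmul]
  rw [this]; linarith

theorem Big.steps3_bd_le' {m : ℕ} (hm : 𝔊.Big (gen K F) m) :
    bd k Fk + gen k Fk + 1 ≤ dg (m • 𝔊.Mk) := by
  have h := hm.2.2
  have hg : (0 : ℤ) ≤ gen K F := Int.natCast_nonneg _
  have : dg (m • 𝔊.Mk) = m * 𝔊.n := by
    rw [← 𝔊.dg_Mk]; simp [dg, map_nsmul]
  rw [this, ← 𝔊.genus_eq]; linarith


section Steps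
variable [Finite Ω] {m : ℕ} {E₀ : Divisor K F} {E₀b : Divisor k Fk}
  {E₁ E₂ E₃ : Ω → Divisor K F} {E₁b E₂b E₃b : Ω → Divisor k Fk}

/-- step (f3) -/
theorem step_three (hc : 𝔊.ConstRed 𝒮) (hm : 𝔊.Big (gen K F) m)
    (h₀ : 𝔊.IsRdiv E₀ E₀b) (d₀ : dg E₀ = gen K F)
    (h₃ : ∀ ω, 𝔊.IsRdiv (E₃ ω) (E₃b ω)) (d₃ : ∀ ω, dg (E₃ ω) = gen K F)
    {f₀ : Ω → F} (hf₀ : ∀ ω, f₀ ω ≠ 0 ∧ divOf (f₀ ω) = E₃ ω + E₀ - E₁ ω - E₂ ω)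
    {f₀b : Ω → Fk} (hf₀b : ∀ ω, f₀b ω ≠ 0 ∧ divOf (f₀b ω) = E₃b ω + E₀b - E₁b ω - E₂b ω)
    (rY : 𝔊.Reg 𝒮 (m + (m + 2 * m)) (fun ω => L (4 • (m • 𝔊.M) - E₁ ω - E₂ ω)))
    (eY : ∀ ω, 𝔊.redSub (L (4 • (m • 𝔊.M) - E₁ ω - E₂ ω)) = L (4 • (m • 𝔊.Mk) - E₁b ω - E₂b ω))
    {a : Ω → F} {ab : Ω → Fk} (ra : 𝔊.Reg 𝒮 (m + m) (fun ω => K ∙ a ω))
    (ha : ∀ ω, a ω ≠ 0 ∧ ab ω ≠ 0 ∧ 𝔊.redSub (K ∙ a ω) = k ∙ ab ω)
    (rb : 𝔊.Reg 𝒮 (m + m) (fun ω => K ∙ (a ω * f₀ ω)))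
    (eb : ∀ ω, 𝔊.redSub (K ∙ (a ω * f₀ ω)) = k ∙ (ab ω * f₀b ω)) :
    𝔊.Reg 𝒮 m (fun ω => L (m • 𝔊.M - E₃ ω)) := by
  have hi0 : 𝔊.i₀ ≤ m := hm.1
  have hi2 : 𝔊.i₀ ≤ m + m := by omega
  have hi3 : 𝔊.i₀ ≤ 3 * m := by omega
  have hi4 : 𝔊.i₀ ≤ m + (m + 2 * m) := by omega
  have hi5 : 𝔊.i₀ ≤ (m + m) + 3 * m := by omega
  have e3 : (3 * m) • 𝔊.M = 3 • (m • 𝔊.M) := mul_smul 3 m 𝔊.M
  have e3k : (3 * m) • 𝔊.Mk = 3 • (m • 𝔊.Mk) := mul_smul 3 m 𝔊.Mk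
  -- the constant family `L(3mM - E₀)`
  have hle : L (3 • (m • 𝔊.M) - E₀) ≤ L ((3 * m) • 𝔊.M) := by
    rw [e3]; exact L_mono (sub_le_self _ h₀.1)
  have rc : 𝔊.Reg 𝒮 (3 * m) (fun _ : Ω => L (3 • (m • 𝔊.M) - E₀)) := Reg.const 𝒮 hi3 hle
  have ec : 𝔊.redSub (L (3 • (m • 𝔊.M) - E₀)) = L (3 • (m • 𝔊.Mk) - E₀b) := by
    have hb : 𝔊.Big (dg E₀) (3 * m) := by
      rw [d₀]; exact Big.mono 𝔊 hm le_rfl (by omega)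
    have := h₀.2.2.2 (3 * m) hb
    rwa [e3, e3k] at this
  -- the two products
  obtain ⟨r2, e2⟩ := Reg.line_mul hc hi2 hi3 ra (fun ω => ⟨(ha ω).2.1, (ha ω).2.2⟩) rc
  obtain ⟨r3, e3'⟩ := Reg.line_mul hc hi2 hi4 rb
    (fun ω => ⟨mul_ne_zero (ha ω).2.1 (hf₀b ω).1, eb ω⟩) rY
  have hidx : (m + m) + (m + (m + 2 * m)) = m + ((m + m) + 3 * m) := by omega
  rw [hidx] at r3
  -- the two fibre identities
  have fK : ∀ ω, KM.colon (L (m • 𝔊.M)) ((K ∙ a ω) * L (3 • (m • 𝔊.M) - E₀))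
      ((K ∙ (a ω * f₀ ω)) * L (4 • (m • 𝔊.M) - E₁ ω - E₂ ω)) = L (m • 𝔊.M - E₃ ω) := fun ω =>
    fibre_three hm.steps3_bd_le d₀ (h₃ ω).1 (ha ω).1 (hf₀ ω).1 (hf₀ ω).2
  have fk : ∀ ω, KM.colon (L (m • 𝔊.Mk)) ((k ∙ ab ω) * L (3 • (m • 𝔊.Mk) - E₀b))
      ((k ∙ (ab ω * f₀b ω)) * L (4 • (m • 𝔊.Mk) - E₁b ω - E₂b ω)) = L (m • 𝔊.Mk - E₃b ω) :=
    fun ω => fibre_three hm.steps3_bd_le' (by rw [h₀.2.2.1, d₀, 𝔊.genus_eq]) (h₃ ω).2.1 (ha ω).2.1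
      (hf₀b ω).1 (hf₀b ω).2
  have hdim : ∀ ω, finrank k (KM.colon (L (m • 𝔊.Mk))
      (𝔊.redSub ((K ∙ a ω) * L (3 • (m • 𝔊.M) - E₀)))
      (𝔊.redSub ((K ∙ (a ω * f₀ ω)) * L (4 • (m • 𝔊.M) - E₁ ω - E₂ ω)))) ≤
      finrank K (KM.colon (L (m • 𝔊.M)) ((K ∙ a ω) * L (3 • (m • 𝔊.M) - E₀))
        ((K ∙ (a ω * f₀ ω)) * L (4 • (m • 𝔊.M) - E₁ ω - E₂ ω))) := by
    intro ω
    rw [e2 ω, e3' ω, ec, eY ω, fk ω, fK ω]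
    have hb : 𝔊.Big (dg (E₃ ω)) m := by rw [d₃ ω]; exact hm
    rw [← (h₃ ω).2.2.2 m hb]
    exact (𝔊.finrank_redSub hi0 (L_mono (sub_le_self _ (h₃ ω).1))).le
  have := (Reg.colon hc hi0 hi5 r2 r3 hdim).1
  simpa only [fK] using this

/-- **the addition law in families** -/
theorem reg_add (hc : 𝔊.ConstRed 𝒮) (hm : 𝔊.Big (gen K F) m)
    (h₀ : 𝔊.IsRdiv E₀ E₀b) (d₀ : dg E₀ = gen K F)
    (h₁ : ∀ ω, 𝔊.IsRdiv (E₁ ω) (E₁b ω)) (d₁ : ∀ ω, dg (E₁ ω) = gen K F)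
    (h₂ : ∀ ω, 𝔊.IsRdiv (E₂ ω) (E₂b ω)) (d₂ : ∀ ω, dg (E₂ ω) = gen K F)
    (h₃ : ∀ ω, 𝔊.IsRdiv (E₃ ω) (E₃b ω)) (hone : ∀ ω, ell (E₃b ω) = 1)
    (hlin : ∀ ω, ∃ f₀ : F, f₀ ≠ 0 ∧ divOf f₀ = E₃ ω + E₀ - E₁ ω - E₂ ω)
    (r₁ : 𝔊.Reg 𝒮 m (fun ω => L (m • 𝔊.M - E₁ ω))) (r₂ : 𝔊.Reg 𝒮 m (fun ω => L (m • 𝔊.M - E₂ ω))) :
    𝔊.Reg 𝒮 m (fun ω => L (m • 𝔊.M - E₃ ω)) := by
  choose f₀ hf₀ using hlin
  -- the degree of `E₃`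
  have d₃ : ∀ ω, dg (E₃ ω) = gen K F := by
    intro ω
    have h := degree_divOf (K := K) (f₀ ω)
    rw [(hf₀ ω).2] at h
    simp only [map_sub, map_add] at h
    have h1 := d₁ ω
    have h2 := d₂ ω
    simp only [dg] at h1 h2 d₀ ⊢
    linarith
  -- the reduction of `f₀`
  have hlinb : ∀ ω, ∃ f₀b : Fk, f₀b ≠ 0 ∧ divOf f₀b = E₃b ω + E₀b - E₁b ω - E₂b ω := by
    intro ω
    obtain ⟨yb, hyb, e⟩ := IsRdiv.linEquiv 𝔊 (IsRdiv.add 𝔊 (h₃ ω) h₀) (IsRdiv.add 𝔊 (h₁ ω) (h₂ ω))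
      (hf₀ ω).1 (by rw [(hf₀ ω).2]; abel)
    exact ⟨yb, hyb, by rw [← e]; abel⟩
  choose f₀b hf₀b using hlinb
  -- `l(E₁b + E₂b - E₀b) = 1`
  have hone' : ∀ ω, ell (E₁b ω + E₂b ω - E₀b) = 1 := by
    intro ω
    have e : E₁b ω + E₂b ω - E₀b = E₃b ω - divOf (f₀b ω) := by rw [(hf₀b ω).2]; abel
    have h := finrank_span_singleton_mul (K := k) (hf₀b ω).1 (L (E₃b ω))
    rw [span_singleton_mul_L (hf₀b ω).1, ← e] at h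
    exact h.trans (hone ω)
  obtain ⟨rY, eY⟩ := step_one hc hm h₁ d₁ h₂ d₂ r₁ r₂
  obtain ⟨a, ab, ra, ha⟩ := step_section hc hm h₁ d₁ h₂ d₂ r₁ r₂
  obtain ⟨rl, hl⟩ := step_two hc hm h₀ d₀ h₁ d₁ h₂ d₂ hone' rY eY ra ha
  -- the two lines
  have lK : ∀ ω, L (E₁ ω + E₂ ω - E₀) = K ∙ f₀ ω := by
    intro ω
    refine steps3_eq_span_singleton (hl ω).1 ?_ (hf₀ ω).1
    rw [mem_L_iff (hf₀ ω).1, (hf₀ ω).2]
    have : E₃ ω + E₀ - E₁ ω - E₂ ω + (E₁ ω + E₂ ω - E₀) = E₃ ω := by abel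
    rw [this]; exact (h₃ ω).1
  have lk : ∀ ω, L (E₁b ω + E₂b ω - E₀b) = k ∙ f₀b ω := by
    intro ω
    refine steps3_eq_span_singleton (hone' ω) ?_ (hf₀b ω).1
    rw [mem_L_iff (hf₀b ω).1, (hf₀b ω).2]
    have : E₃b ω + E₀b - E₁b ω - E₂b ω + (E₁b ω + E₂b ω - E₀b) = E₃b ω := by abel
    rw [this]; exact (h₃ ω).2.1
  have rb : 𝔊.Reg 𝒮 (m + m) (fun ω => K ∙ (a ω * f₀ ω)) := by
    simpa only [lK, steps3_span_mul_span] using rl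
  have eb : ∀ ω, 𝔊.redSub (K ∙ (a ω * f₀ ω)) = k ∙ (ab ω * f₀b ω) := by
    intro ω
    have := (hl ω).2
    rwa [lK, lk, steps3_span_mul_span, steps3_span_mul_span] at this
  exact step_three hc hm h₀ d₀ h₃ d₃ hf₀ hf₀b rY eY ra
    (fun ω => ⟨(ha ω).1, (ha ω).2.2.1, (ha ω).2.2.2.2⟩) rb eb

end Steps


end GRData

end Fermat.Agent.S19.KM
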